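import Fermat.Agent.RowS56.Vanishing.Sylow
import Fermat.Agent.Engine.TW.Choice
import Fermat.Agent.CFT.Brauer.PsiChar
import Mathlib.RingTheory.Trace.Basic

/-!
# `H¹` of the image with values in `ad⁰(1)` vanishes

For an odd `p` and an absolutely irreducible residual representation over any finite field with
cyclotomic determinant, a cocycle with values in the Cartier dual of `ad⁰` vanishing on the kernel
of the representation is a coboundary.
-/

noncomputable section

namespace Fermat.Agent.RowS56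

open Fermat.Agent.DefRing Fermat.Agent.Deform Fermat.Agent.Engine Fermat.Agent.GalCoh Fermat.Agent.GalCoh.Descent
  Fermat.Agent.Engine.TW ExtCitation Module

local notation "Γ" => (AlgebraicClosure ℚ ≃ₐ[ℚ] AlgebraicClosure ℚ)

variable {k : Type} [Field k] [Finite k] {p : ℕ} [Fact p.Prime] [Algebra (ZMod p) k]

/-- The trace pairing on trace zero matrices. -/
def trPair : traceZero k →ₗ[ZMod p] Dual (ZMod p) (traceZero k) :=
  LinearMap.mk₂ (ZMod p)
    (fun X Y => Algebra.trace (ZMod p) k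
      ((X : Matrix (Fin 2) (Fin 2) k) * (Y : Matrix (Fin 2) (Fin 2) k)).trace)
    (fun X X' Y => by simp [Matrix.add_mul, Matrix.trace_add])
    (fun t X Y => by simp [Matrix.trace_smul])
    (fun X Y Y' => by simp [Matrix.mul_add, Matrix.trace_add])
    (fun t X Y => by simp [Matrix.trace_smul])

omit [Finite k] in
lemma trPair_apply (X Y : traceZero k) :
    trPair (p := p) X Y = Algebra.trace (ZMod p) k
      ((X : Matrix (Fin 2) (Fin 2) k) * (Y : Matrix (Fin 2) (Fin 2) k)).trace := rfl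

lemma trPair_injective (h2 : (2 : k) ≠ 0) :
    Function.Injective (trPair (k := k) (p := p)) := by
  rw [injective_iff_map_eq_zero]
  intro X hX
  have : FiniteDimensional (ZMod p) k := Module.Finite.of_finite
  have key : ∀ Y : traceZero k,
      ((X : Matrix (Fin 2) (Fin 2) k) * (Y : Matrix (Fin 2) (Fin 2) k)).trace = 0 := fun Y => by
    refine (traceForm_nondegenerate (ZMod p) k).1 _ fun a => ?_
    have h := LinearMap.congr_fun hX (a • Y)
    rw [trPair_apply, Submodule.coe_smul, Matrix.mul_smul, Matrix.trace_smul, smul_eq_mul,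
      LinearMap.zero_apply] at h
    rwa [Algebra.traceForm_apply, mul_comm]
  have hX2 := tr_fin_two (mem_traceZero.mp X.2)
  have h01 := key ⟨!![0, 0; 1, 0], by simp [mem_traceZero, Matrix.trace_fin_two]⟩
  have h10 := key ⟨!![0, 1; 0, 0], by simp [mem_traceZero, Matrix.trace_fin_two]⟩
  have h00 := key ⟨!![1, 0; 0, -1], by simp [mem_traceZero, Matrix.trace_fin_two]⟩
  simp [Matrix.trace_fin_two, Matrix.mul_apply, Fin.sum_univ_two, hX2] at h01 h10 h00
  have h00' : (X : Matrix (Fin 2) (Fin 2) k) 0 0 = 0 :=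
    (mul_eq_zero.mp (show (2 : k) * (X : Matrix (Fin 2) (Fin 2) k) 0 0 = 0 by
      linear_combination h00)).resolve_left h2
  refine Subtype.ext (Matrix.ext fun i j => ?_)
  fin_cases i <;> fin_cases j <;> simp [h00', h01, h10, hX2]

lemma trPair_bijective (h2 : (2 : k) ≠ 0) :
    Function.Bijective (trPair (k := k) (p := p)) := by
  have : FiniteDimensional (ZMod p) k := Module.Finite.of_finite
  have := Engine.TW.finiteDimensional_traceZero (k := k) (p := p)
  exact ⟨trPair_injective h2, (LinearMap.injective_iff_surjective_of_finrank_eq_finrank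
    Subspace.dual_finrank_eq.symm).mp (trPair_injective h2)⟩

variable [CharP k p] {ρ : MRep k} {χ : GQ → k}

/-- The representation as a homomorphism to `GL₂`. -/
def glHom (ρ : MRep k) : Γ →* GL (Fin 2) k := MonoidHom.toHomUnits (G := Γ) ρ

omit [Finite k] in
lemma coe_glHom (ρ : MRep k) (σ : Γ) : (glHom ρ σ : Matrix (Fin 2) (Fin 2) k) = ρ σ := rfl

omit [Finite k] in
lemma coe_glHom_inv (ρ : MRep k) (σ : Γ) :
    (((glHom ρ σ)⁻¹ : GL (Fin 2) k) : Matrix (Fin 2) (Fin 2) k) = ρ σ⁻¹ := by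
  rw [← map_inv, coe_glHom]

variable (hχ : IsCyclotomicModP p χ) (hdet : ∀ σ, (ρ σ).det = χ σ)

omit [Finite k] [Algebra (ZMod p) k] in
include hχ hdet in
lemma det_eq_cast (σ : Γ) :
    (ρ σ).det = ZMod.castHom dvd_rfl k (cycloChar p σ : ZMod p) := by
  rw [hdet, chi_eq (p := p) hχ, ZMod.castHom_apply, ZMod.cast_eq_val]

include hχ hdet in
omit [Finite k] in
/-- The Cartier dual of `ad⁰` is `ad⁰ ⊗ det`. -/
lemma trPair_detAd (σ : Γ) (X Y : traceZero k)
    (hY : (Y : Matrix (Fin 2) (Fin 2) k) = detAd (glHom ρ σ) X) :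
    dualMu (adP p ρ) σ (trPair X) = trPair Y := by
  refine LinearMap.ext fun W => ?_
  rw [dualMu_apply, trPair_apply, trPair_apply, adP_apply, coe_slRep, adRep_apply, inv_inv, hY,
    detAd_eq, coe_glHom, coe_glHom_inv, det_eq_cast hχ hdet, Matrix.smul_mul, Matrix.trace_smul,
    show ZMod.castHom dvd_rfl k (cycloChar p σ : ZMod p) =
      algebraMap (ZMod p) k (cycloChar p σ : ZMod p) from
      RingHom.congr_fun (Subsingleton.elim _ _) _,
    smul_eq_mul, ← Algebra.smul_def, map_smul, smul_eq_mul]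
  congr 2
  rw [show (X : Matrix (Fin 2) (Fin 2) k) * (ρ σ⁻¹ * (W : Matrix (Fin 2) (Fin 2) k) * ρ σ) =
      ((X : Matrix (Fin 2) (Fin 2) k) * ρ σ⁻¹) * (W : Matrix (Fin 2) (Fin 2) k) * ρ σ by
    simp [mul_assoc], Matrix.trace_mul_comm]
  simp [mul_assoc]

variable (hρ : GaloisFactorsThroughFiniteLevel (ρ : GQ →* _))
  (habs : IndexTwoIrreducible ρ) (hp2 : p ≠ 2)

set_option maxSynthPendingDepth 5 in
include hχ hdet hρ habs hp2 in
/-- **`H¹(image, ad⁰(1)) = 0`.** -/
theorem mem_B1_of_kills_rhoKer {y : Γ → Dual (ZMod p) (traceZero k)}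
    (hy : ∀ g h, y (g * h) = dualMu (adP p ρ) g (y h) + y g)
    (hker : ∀ a, ρ a = 1 → y a = 0) : y ∈ B1 (dualMu (adP p ρ)) := by
  classical
  have h2 : (2 : k) ≠ 0 := two_ne_zero_of_charP hp2
  let G : Subgroup (GL (Fin 2) k) := (glHom ρ).range
  have hmem : ∀ σ, glHom ρ σ ∈ G := fun σ => ⟨σ, rfl⟩
  let pre : GL (Fin 2) k → Γ := Function.invFun (glHom ρ)
  let φ : GL (Fin 2) k → Matrix (Fin 2) (Fin 2) k := fun g =>
    ((Function.surjInv (trPair_bijective (p := p) h2).2 (y (pre g)) : traceZero k) :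
      Matrix (Fin 2) (Fin 2) k)
  have hcongr : ∀ a b : Γ, glHom ρ a = glHom ρ b → y a = y b := fun a b hab => by
    have hm : ρ (b⁻¹ * a) = 1 := by
      rw [← coe_glHom, map_mul, map_inv, hab, inv_mul_cancel, Units.val_one]
    have h := hy b (b⁻¹ * a)
    rw [mul_inv_cancel_left, hker _ hm, map_zero, zero_add] at h
    exact h
  have hφσ : ∀ σ, φ (glHom ρ σ) =
      ((Function.surjInv (trPair_bijective (p := p) h2).2 (y σ) : traceZero k) :
        Matrix (Fin 2) (Fin 2) k) := fun σ => by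
    show ((Function.surjInv _ (y (pre (glHom ρ σ))) : traceZero k) :
      Matrix (Fin 2) (Fin 2) k) = _
    rw [hcongr _ σ (Function.invFun_eq ⟨σ, rfl⟩)]
  have hφ : IsDetCocycle G φ := by
    refine ⟨fun g _ => mem_traceZero.mp (Subtype.mem _), ?_⟩
    rintro _ ⟨a, rfl⟩ _ ⟨b, rfl⟩
    rw [← map_mul, hφσ, hφσ, hφσ]
    set sy := Function.surjInv (trPair_bijective (k := k) (p := p) h2).2 with hsy
    have hs : ∀ f, trPair (sy f) = f := Function.surjInv_eq _
    let Y : traceZero k := ⟨detAd (glHom ρ a) (sy (y b)), by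
      rw [mem_traceZero, detAd_eq, Matrix.trace_smul, Matrix.trace_mul_cycle, ← Units.val_mul,
        inv_mul_cancel, Units.val_one, one_mul, mem_traceZero.mp (sy (y b)).2, smul_zero]⟩
    have h : sy (y (a * b)) = sy (y a) + Y := by
      refine trPair_injective (p := p) h2 ?_
      rw [map_add, hs, hs, hy, ← trPair_detAd hχ hdet a (sy (y b)) Y rfl, hs, add_comm]
    rw [h, Submodule.coe_add]
  have hns : HasNonsquareDet p G := by
    obtain ⟨a, ha⟩ := FiniteField.exists_nonsquare (F := ZMod p) (by rwa [ZMod.ringChar_zmod_n])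
    have ha0 : a ≠ 0 := fun h => ha (h ▸ IsSquare.zero)
    obtain ⟨σ, hσ⟩ := CFT.Brauer.cycloChar_surjective p (Units.mk0 a ha0)
    exact ⟨_, hmem σ, a, ha, by rw [coe_glHom, det_eq_cast hχ hdet, hσ, Units.val_mk0]⟩
  have hirr : ∀ v : Fin 2 → k, v ≠ 0 → ∃ g ∈ G, ∀ c : k,
      (g : Matrix (Fin 2) (Fin 2) k).mulVec v ≠ c • v := by
    intro v hv
    by_contra! hcon
    have hst : ∀ σ ∈ (⊤ : Subgroup GQ), ∀ x ∈ Submodule.span k {v},
        ((ρ σ).map (algebraMap k k)).mulVec x ∈ Submodule.span k {v} := by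
      intro σ _ x hx
      obtain ⟨t, rfl⟩ := Submodule.mem_span_singleton.mp hx
      obtain ⟨c, hc⟩ := hcon _ (hmem σ)
      rw [coe_glHom] at hc
      simp only [Algebra.algebraMap_self, RingHom.coe_id, Matrix.map_id, Matrix.mulVec_smul, hc]
      exact Submodule.smul_mem _ t (Submodule.smul_mem _ c (Submodule.mem_span_singleton_self v))
    rcases habs k ⊤ (Or.inl (by simp)) _ hst with h | h
    · exact hv (Submodule.span_singleton_eq_bot.mp h)
    · have := finrank_span_singleton (K := k) hv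
      rw [h, finrank_top, Module.finrank_pi, Fintype.card_fin] at this
      omega
  obtain ⟨P, X, hPG, hidx, hX, hP⟩ := exists_coboundary_sylow hp2 G hns hirr hφ
  set f := trPair (p := p) (⟨X, mem_traceZero.mpr hX⟩ : traceZero k) with hf
  let H : Subgroup Γ := P.comap (glHom ρ)
  have hHρ : rhoKer ρ ≤ H := fun a (ha : ρ a = 1) => by
    show glHom ρ a ∈ P
    rw [show glHom ρ a = 1 from Units.ext ha]
    exact P.one_mem
  have hyH : ∀ s ∈ H, y s = dualMu (adP p ρ) s f - f := fun s hs => by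
    have h := hP _ hs
    rw [hφσ] at h
    let Y : traceZero k := ⟨detAd (glHom ρ s) X, by
      rw [mem_traceZero, detAd_eq, Matrix.trace_smul, Matrix.trace_mul_cycle, ← Units.val_mul,
        inv_mul_cancel, Units.val_one, one_mul, hX, smul_zero]⟩
    have hY : dualMu (adP p ρ) s f = trPair Y := by
      rw [hf]
      exact trPair_detAd hχ hdet s _ Y rfl
    rw [hY, hf, ← map_sub]
    refine (Function.surjInv_eq (trPair_bijective (k := k) (p := p) h2).2 (y s)).symm.trans
      (congrArg (trPair (k := k) (p := p)) (Subtype.ext ?_))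
    rw [Submodule.coe_sub]
    exact h
  have : (rhoKer ρ).FiniteIndex := fullLevels.finiteIndex (fullLevels_rhoKer hρ)
  have : H.FiniteIndex := Subgroup.finiteIndex_of_le hHρ
  have hN : H.index = P.relIndex G := by
    rw [Subgroup.index_comap]
  set y' : Γ → Dual (ZMod p) (traceZero k) := fun g => y g - (dualMu (adP p ρ) g f - f) with hy'def
  have hy' : ∀ g h, y' (g * h) = dualMu (adP p ρ) g (y' h) + y' g := fun g h => by
    simp only [hy'def, hy, map_mul, Module.End.mul_apply, map_sub]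
    abel
  have : Fintype (Γ ⧸ H) := Fintype.ofFinite _
  have hN0 : ((Fintype.card (Γ ⧸ H) : ℕ) : ZMod p) ≠ 0 := by
    rw [← Nat.card_eq_fintype_card, ← Subgroup.index, Ne, ZMod.natCast_eq_zero_iff, hN]
    exact hidx
  set w := ∑ x : Γ ⧸ H, y' x.out with hw
  refine mem_B1_iff.mpr ⟨f - ((Fintype.card (Γ ⧸ H) : ℕ) : ZMod p)⁻¹ • w, fun g => ?_⟩
  have hsum : dualMu (adP p ρ) g w + (Fintype.card (Γ ⧸ H)) • y' g = w := by
    rw [hw, map_sum, ← Finset.card_univ, ← Finset.sum_const, ← Finset.sum_add_distrib]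
    refine Fintype.sum_bijective (fun x => g • x) (MulAction.bijective g) _ _ fun x => ?_
    rw [← hy']
    have hm : (g * x.out)⁻¹ * (g • x).out ∈ H :=
      (QuotientGroup.eq).mp (by
        rw [QuotientGroup.out_eq']
        conv_rhs => rw [← QuotientGroup.out_eq' x]
        rfl)
    conv_rhs => rw [← mul_inv_cancel_left (g * x.out) (g • x).out]
    rw [hy' (g * x.out), show y' ((g * x.out)⁻¹ * (g • x).out) = 0 from sub_eq_zero.mpr (hyH _ hm),
      map_zero, zero_add]
  rw [← Nat.cast_smul_eq_nsmul (ZMod p)] at hsum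
  have h3 : dualMu (adP p ρ) g w - w = -(((Fintype.card (Γ ⧸ H) : ℕ) : ZMod p) • y' g) := by
    conv_lhs => arg 2; rw [← hsum]
    abel
  rw [map_sub, map_smul, sub_sub_sub_comm, ← smul_sub, h3, smul_neg, smul_smul,
    inv_mul_cancel₀ hN0, one_smul, hy'def, sub_neg_eq_add]
  exact (add_sub_cancel _ _).symm

end Fermat.Agent.RowS56
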