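import Fermat.Agent.Engine.TW.FixedPointCount
import Mathlib.LinearAlgebra.Matrix.GeneralLinearGroup.Defs
import Mathlib.LinearAlgebra.Matrix.Adjugate
import Mathlib.FieldTheory.IsAlgClosed.AlgebraicClosure
import Mathlib.FieldTheory.Finite.Basic

/-!
# Cocycles with values in `ad⁰ ⊗ det` on the unipotent radical

For a finite `G ≤ GL₂(k)` whose Sylow `p`-subgroup is upper unitriangular, not fixing the line
through `e₁` and with a non-square determinant in the prime field, a cocycle with values in trace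
zero matrices for `g X ↦ det g · g X g⁻¹ = g X adj g` is a coboundary on the Sylow subgroup.
-/

noncomputable section

namespace Fermat.Agent.RowS56

open Matrix

variable {k : Type} [Field k]

local notation "GL₂" => GL (Fin 2) k
local notation "M₂" => Matrix (Fin 2) (Fin 2) k

/-- The action of `GL₂` on `ad ⊗ det`. -/
def detAd (g : GL₂) (X : M₂) : M₂ := (g : M₂) * X * Matrix.adjugate (g : M₂)

lemma detAd_one (X : M₂) : detAd 1 X = X := by simp [detAd]

/-- A cocycle on a subgroup for `ad⁰ ⊗ det`. -/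
def IsDetCocycle (G : Subgroup GL₂) (φ : GL₂ → M₂) : Prop :=
  (∀ g ∈ G, (φ g).trace = 0) ∧ ∀ g ∈ G, ∀ h ∈ G, φ (g * h) = φ g + detAd g (φ h)

/-- The unitriangular group. -/
def upperUni : Subgroup GL₂ where
  carrier := {g | g 0 0 = 1 ∧ g 1 0 = 0 ∧ g 1 1 = 1}
  one_mem' := by simp
  mul_mem' := by
    rintro a b ⟨a0, a1, a2⟩ ⟨b0, b1, b2⟩
    simp [Matrix.mul_apply, Fin.sum_univ_two, a0, a1, a2, b0, b1, b2]
  inv_mem' := by
    rintro a ⟨a0, a1, a2⟩
    have h : (a⁻¹ : GL₂) * a = 1 := inv_mul_cancel _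
    show (a⁻¹ : GL₂) 0 0 = 1 ∧ (a⁻¹ : GL₂) 1 0 = 0 ∧ (a⁻¹ : GL₂) 1 1 = 1
    generalize (a⁻¹ : GL₂) = b at h ⊢
    have e := fun i j => congrArg (fun M : GL₂ => M i j) h
    have e00 := e 0 0; have e10 := e 1 0; have e11 := e 1 1
    simp [Matrix.mul_apply, Fin.sum_univ_two, a0, a1, a2] at e00 e10 e11
    rw [e10, zero_mul, zero_add] at e11
    exact ⟨e00, e10, e11⟩

lemma mem_upperUni {g : GL₂} :
    g ∈ upperUni ↔ g 0 0 = 1 ∧ g 1 0 = 0 ∧ g 1 1 = 1 := Iff.rfl

/-- A transvection. -/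
def uni (x : k) : GL₂ where
  val := !![1, x; 0, 1]
  inv := !![1, -x; 0, 1]
  val_inv := by ext i j; fin_cases i <;> fin_cases j <;> simp
  inv_val := by ext i j; fin_cases i <;> fin_cases j <;> simp

@[simp] lemma coe_uni (x : k) : ((uni x : GL₂) : M₂) = !![1, x; 0, 1] := rfl

lemma uni_add (x y : k) : uni (x + y) = uni x * uni y := by
  refine Units.ext ?_
  ext i j
  fin_cases i <;> fin_cases j <;> simp [add_comm]

lemma uni_zero : uni (0 : k) = 1 := by
  refine Units.ext ?_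
  ext i j
  fin_cases i <;> fin_cases j <;> simp

lemma uni_mem (x : k) : uni x ∈ (upperUni : Subgroup GL₂) := by simp [mem_upperUni]

lemma eq_uni_of_mem {g : GL₂} (hg : g ∈ (upperUni : Subgroup GL₂)) : g = uni (g 0 1) := by
  obtain ⟨h0, h1, h2⟩ := hg
  refine Units.ext ?_
  ext i j
  fin_cases i <;> fin_cases j <;> simp [h0, h1, h2]

/-- The translation parts in `G`. -/
def translations (G : Subgroup GL₂) : AddSubgroup k where
  carrier := {x | uni x ∈ G}
  zero_mem' := by simp [uni_zero, G.one_mem]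
  add_mem' {x y} hx hy := by
    show uni (x + y) ∈ G
    rw [uni_add]
    exact G.mul_mem hx hy
  neg_mem' {x} hx := by
    show uni (-x) ∈ G
    have : uni (-x) = (uni x)⁻¹ :=
      eq_inv_of_mul_eq_one_left (by rw [← uni_add, neg_add_cancel, uni_zero])
    rw [this]
    exact G.inv_mem hx

lemma mem_translations {G : Subgroup GL₂} {x : k} : x ∈ translations G ↔ uni x ∈ G := Iff.rfl

lemma card_translations (G : Subgroup GL₂) :
    Nat.card (translations G) = Nat.card (G ⊓ upperUni : Subgroup GL₂) := by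
  refine Nat.card_congr ⟨fun x => ⟨uni x.1, x.2, uni_mem _⟩, fun g => ⟨(g : GL₂) 0 1, ?_⟩,
    fun x => ?_, fun g => ?_⟩
  · show uni _ ∈ G
    rw [← eq_uni_of_mem g.2.2]
    exact g.2.1
  · ext; simp
  · exact Subtype.ext (eq_uni_of_mem g.2.2).symm

lemma detAd_apply (g : GL₂) (X : M₂) :
    detAd g X = !![g 0 0, g 0 1; g 1 0, g 1 1] * X * !![g 1 1, -g 0 1; -g 1 0, g 0 0] := by
  rw [detAd, Matrix.adjugate_fin_two]
  congr 2
  exact Matrix.eta_fin_two _

lemma tr_fin_two {X : M₂} (h : X.trace = 0) : X 1 1 = -X 0 0 := by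
  rw [Matrix.trace_fin_two] at h
  linear_combination h

lemma mul_uni_of_upper {b : GL₂} (hb : b 1 0 = 0) (x : k) :
    b * uni x = uni (b 0 0 * x / b 1 1) * b := by
  have hd : b 1 1 ≠ 0 := fun h => b.det_ne_zero (by rw [Matrix.det_fin_two, hb, h]; ring)
  refine Units.ext ?_
  ext i j
  fin_cases i <;> fin_cases j <;>
    simp [Matrix.mul_apply, Fin.sum_univ_two, hb]; field_simp; ring

variable {p : ℕ} [Fact p.Prime] [CharP k p]

omit [Fact p.Prime] in
lemma two_ne_zero_of_charP [Fact p.Prime] (hp2 : p ≠ 2) : (2 : k) ≠ 0 := fun h =>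
  hp2 (((Nat.prime_dvd_prime_iff_eq (Fact.out : p.Prime) Nat.prime_two).mp
    ((CharP.cast_eq_zero_iff k p 2).mp (by simpa using h))))

lemma uni_pow (x : k) (n : ℕ) : uni x ^ n = uni ((n : k) * x) := by
  induction n with
  | zero => simp [uni_zero]
  | succ n ih => rw [pow_succ, ih, ← uni_add]; congr 1; push_cast; ring

omit [Fact p.Prime] in
lemma isPGroup_inf_upperUni (G : Subgroup GL₂) :
    IsPGroup p (G ⊓ upperUni : Subgroup GL₂) := fun g =>
  ⟨1, Subtype.ext (by
    rw [SubmonoidClass.coe_pow, pow_one, eq_uni_of_mem g.2.2, uni_pow, CharP.cast_eq_zero,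
      zero_mul, uni_zero, Subgroup.coe_one])⟩

variable (p) in
/-- `G ⊓ upperUni` is a maximal `p`-subgroup of `G`. -/
def IsUniSylow (G : Subgroup GL₂) : Prop :=
  ∀ Q : Subgroup GL₂, Q ≤ G → IsPGroup p Q → G ⊓ upperUni ≤ Q → Q = G ⊓ upperUni

/-- The Frattini argument. -/
theorem exists_borel_det [Finite k] {G : Subgroup GL₂} (hmax : IsUniSylow p G)
    {x₀ : k} (hx₀ : x₀ ∈ translations G) (hx0 : x₀ ≠ 0) {g : GL₂} (hg : g ∈ G) :
    ∃ b ∈ G, b 1 0 = 0 ∧ (b : M₂).det = (g : M₂).det := by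
  let N : Subgroup G := (Matrix.GeneralLinearGroup.det.comp G.subtype).ker
  have : N.Normal := MonoidHom.normal_ker _
  have hmemN : ∀ h : G, h ∈ N ↔ ((h : GL₂) : M₂).det = 1 := fun h => by
    simp [N, MonoidHom.mem_ker, Units.ext_iff]
  let U : Subgroup N := ((G ⊓ upperUni).subgroupOf G).subgroupOf N
  have hUN : ∀ h : GL₂, h ∈ (upperUni : Subgroup GL₂) → (h : M₂).det = 1 := fun h hh => by
    rw [Matrix.det_fin_two, hh.1, hh.2.1, hh.2.2]; ring
  let P : Sylow p N :=
    { toSubgroup := U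
      isPGroup' := fun v => by
        obtain ⟨j, hj⟩ := isPGroup_inf_upperUni (p := p) G ⟨((v : N) : G), v.2⟩
        exact ⟨j, Subtype.ext (Subtype.ext (Subtype.ext (by
          have := congrArg Subtype.val hj
          simpa using this)))⟩
      is_maximal' := fun {Q} hQ hle => by
        refine le_antisymm (fun v hv => ?_) hle
        let Q' : Subgroup GL₂ := (Q.map N.subtype).map G.subtype
        have h1 : Q' = G ⊓ upperUni := by
          refine hmax Q' ?_ ((hQ.map _).map _) fun h hh => ?_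
          · rintro _ ⟨v', -, rfl⟩
            exact v'.2
          · exact ⟨⟨h, hh.1⟩, ⟨⟨⟨h, hh.1⟩, (hmemN _).mpr (hUN h hh.2)⟩,
              hle (show (h : GL₂) ∈ G ⊓ upperUni from hh), rfl⟩, rfl⟩
        show ((v : G) : GL₂) ∈ G ⊓ upperUni
        rw [← h1]
        exact ⟨v, ⟨v, hv, rfl⟩, rfl⟩ }
  have hF := Sylow.normalizer_sup_eq_top P
  have hgT : (⟨g, hg⟩ : G) ∈
      Subgroup.normalizer ((P.map N.subtype : Subgroup G) : Set G) ⊔ N := hF ▸ Subgroup.mem_top _
  rw [Subgroup.mem_sup_of_normal_right] at hgT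
  obtain ⟨b, hb, n, hn, hbn⟩ := hgT
  refine ⟨b, b.2, ?_, ?_⟩
  · let u : G := ⟨uni x₀, hx₀⟩
    have hu : u ∈ P.map N.subtype :=
      ⟨⟨u, (hmemN _).mpr (hUN _ (uni_mem _))⟩, ⟨hx₀, uni_mem _⟩, rfl⟩
    obtain ⟨v, hv, hve⟩ := (Subgroup.mem_normalizer_iff.mp hb u).mp hu
    have hv' : ((b * u * b⁻¹ : G) : GL₂) ∈ (upperUni : Subgroup GL₂) := by
      rw [← hve]
      exact (Subgroup.mem_inf.mp hv).2
    set w : GL₂ := ((b * u * b⁻¹ : G) : GL₂) with hw
    have hwb : w * (b : GL₂) = (b : GL₂) * uni x₀ := by simp [hw, u]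
    have e := congrArg (fun M : GL₂ => M 1 1) hwb
    simp [Matrix.mul_apply, Fin.sum_univ_two, hv'.2.1, hv'.2.2] at e
    exact e.resolve_right hx0
  · have h := congrArg (fun h : G => ((h : GL₂) : M₂).det) hbn
    simp only [Subgroup.coe_mul, Units.val_mul, Matrix.det_mul, (hmemN n).mp hn, mul_one] at h
    exact h

/-- The squares of the determinant one torus. -/
def torusSq (G : Subgroup GL₂) : Set k :=
  {a | ∃ g ∈ G, (g : M₂).det = 1 ∧ g 1 0 = 0 ∧ a = g 0 0 ^ 2}

/-- The torus is large. -/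
theorem card_le_two_mul_torusSq [Finite k] (hp2 : p ≠ 2) {G : Subgroup GL₂} (hmax : IsUniSylow p G)
    (hirr : ∃ g ∈ G, g 1 0 ≠ 0) (h5 : 5 ≤ Nat.card (translations G)) :
    Nat.card (translations G) ≤ 2 * (torusSq G).ncard + 1 := by
  classical
  have h2 : (2 : k) ≠ 0 := two_ne_zero_of_charP hp2
  let K := AlgebraicClosure k
  have : CharP K p := charP_of_injective_algebraMap (algebraMap k K).injective p
  let ι : GL₂ →* GL (Fin 2) K := Matrix.GeneralLinearGroup.map (algebraMap k K)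
  have hιapp : ∀ (g : GL₂) i j, ι g i j = algebraMap k K (g i j) := fun g i j => rfl
  have hι : Function.Injective ι := fun a b h => by
    refine Units.ext (Matrix.ext fun i j => (algebraMap k K).injective ?_)
    rw [← hιapp, ← hιapp, h]
  let Γ : Subgroup GL₂ :=
    { carrier := {g | (g : M₂).det = 1 ∧ (g ∈ G ∨ -g ∈ G)}
      one_mem' := ⟨by simp, Or.inl G.one_mem⟩
      mul_mem' := by
        rintro a b ⟨ha, ha'⟩ ⟨hb, hb'⟩
        refine ⟨by simp [Matrix.det_mul, ha, hb], ?_⟩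
        rcases ha' with ha' | ha' <;> rcases hb' with hb' | hb'
        · exact Or.inl (G.mul_mem ha' hb')
        · exact Or.inr (by simpa using G.mul_mem ha' hb')
        · exact Or.inr (by simpa using G.mul_mem ha' hb')
        · exact Or.inl (by simpa using G.mul_mem ha' hb')
      inv_mem' := by
        rintro a ⟨ha, ha'⟩
        refine ⟨?_, ha'.imp G.inv_mem fun h => by simpa using G.inv_mem h⟩
        have h := congrArg Matrix.det (Units.mul_inv a)
        rwa [Matrix.det_mul, ha, one_mul, Matrix.det_one] at h }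
  let ΓK : Subgroup (GL (Fin 2) K) := Γ.map ι
  have : Finite ΓK := (Set.Finite.image ι (Set.toFinite (Γ : Set GL₂))).to_subtype
  have hΓdet : ∀ g ∈ ΓK, (g : Matrix (Fin 2) (Fin 2) K).det = 1 := by
    rintro _ ⟨g, hg, rfl⟩
    rw [Matrix.det_fin_two]
    have h : g 0 0 * g 1 1 - g 0 1 * g 1 0 = 1 := by rw [← Matrix.det_fin_two]; exact hg.1
    have h' := congrArg (algebraMap k K) h
    simpa [hιapp] using h'
  have hneg : (-1 : GL (Fin 2) K) ∈ ΓK :=
    ⟨-1, ⟨by simp [Matrix.det_neg], Or.inr (by simp [G.one_mem])⟩, by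
      refine Units.ext (Matrix.ext fun i j => ?_)
      rw [hιapp]
      fin_cases i <;> fin_cases j <;> simp⟩
  have hΓP : ∀ g ∈ Γ, ∀ j : ℕ, g ^ p ^ j = 1 → g ∈ G := by
    rintro g ⟨-, hg | hg⟩ j hj
    · exact hg
    have hodd : Odd (p ^ j) := ((Fact.out : p.Prime).odd_of_ne_two hp2).pow
    have h1 : (-g) ^ p ^ j = -1 := by rw [hodd.neg_pow, hj]
    have h' : (-1 : GL₂) ∈ G := h1 ▸ G.pow_mem hg _
    simpa using G.mul_mem h' hg
  -- the unitriangular part
  let U : Subgroup ΓK := Engine.TW.PointCount.unip ΓK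
  have hUiff : ∀ g : ΓK, g ∈ U ↔ ∃ h ∈ G ⊓ upperUni, ι h = g := by
    rintro ⟨_, g, hg, rfl⟩
    rw [Engine.TW.PointCount.mem_unip]
    simp only [hιapp]
    rw [← map_one (algebraMap k K), ← map_zero (algebraMap k K)]
    simp only [(algebraMap k K).injective.eq_iff]
    constructor
    · intro hu
      refine ⟨g, ⟨hΓP g hg 1 ?_, hu⟩, rfl⟩
      rw [pow_one, eq_uni_of_mem hu, uni_pow, CharP.cast_eq_zero, zero_mul, uni_zero]
    · rintro ⟨h, hh, he⟩
      rw [← hι he]
      exact hh.2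
  have hUp : IsPGroup p U := fun u => by
    obtain ⟨h, hh, he⟩ := (hUiff u.1).mp u.2
    obtain ⟨j, hj⟩ := isPGroup_inf_upperUni (p := p) G ⟨h, hh⟩
    refine ⟨j, Subtype.ext (Subtype.ext ?_)⟩
    have := congrArg (fun v : (G ⊓ upperUni : Subgroup GL₂) => ι (v : GL₂)) hj
    simpa [he] using this
  let P : Sylow p ΓK :=
    { toSubgroup := U
      isPGroup' := hUp
      is_maximal' := fun {Q} hQ hle => by
        refine le_antisymm (fun v hv => ?_) hle
        let Q' : Subgroup GL₂ := (Q.map ΓK.subtype).comap ι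
        have hQΓ : ∀ g ∈ Q', g ∈ Γ := by
          rintro g ⟨v', -, hv'⟩
          obtain ⟨g', hg', he⟩ := v'.2
          rwa [← hι (he.trans hv')]
        have hQ'p : IsPGroup p Q' := fun g => by
          obtain ⟨v', hv', he⟩ := g.2
          obtain ⟨j, hj⟩ := hQ ⟨v', hv'⟩
          refine ⟨j, Subtype.ext (hι ?_)⟩
          have := congrArg (fun w : Q => ((w : ΓK) : GL (Fin 2) K)) hj
          simp only [SubmonoidClass.coe_pow, Subgroup.coe_one, map_pow, map_one] at this ⊢
          rw [← he]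
          exact this
        have h1 : Q' = G ⊓ upperUni := by
          refine hmax Q' (fun g hg => ?_) hQ'p fun h hh => ?_
          · obtain ⟨j, hj⟩ := hQ'p ⟨g, hg⟩
            exact hΓP g (hQΓ g hg) j (by simpa using congrArg Subtype.val hj)
          · refine ⟨⟨ι h, h, ⟨?_, Or.inl hh.1⟩, rfl⟩, hle ((hUiff _).mpr ⟨h, hh, rfl⟩), rfl⟩
            rw [Matrix.det_fin_two, hh.2.1, hh.2.2.1, hh.2.2.2]; ring
        obtain ⟨g, hg, he⟩ := v.2
        refine (hUiff v).mpr ⟨g, h1 ▸ ?_, he⟩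
        exact ⟨v, hv, he.symm⟩ }
  have hcard : Nat.card U = Nat.card (translations G) := by
    rw [card_translations]
    refine (Nat.card_congr (Equiv.ofBijective
      (fun h : (G ⊓ upperUni : Subgroup GL₂) =>
        (⟨⟨ι h, h.1, ⟨by
            have := h.2.2
            rw [Matrix.det_fin_two, this.1, this.2.1, this.2.2]; ring, Or.inl h.2.1⟩, rfl⟩,
          (hUiff _).mpr ⟨h.1, h.2, rfl⟩⟩ : U))
      ⟨fun a b h => Subtype.ext (hι (congrArg (fun w : U => ((w : ΓK) : GL (Fin 2) K)) h)),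
        fun u => ?_⟩)).symm
    obtain ⟨h, hh, he⟩ := (hUiff u.1).mp u.2
    exact ⟨⟨h, hh⟩, Subtype.ext (Subtype.ext he)⟩
  obtain ⟨g, hg, hg10⟩ := hirr
  have hirr' : ∃ g : ΓK, (g : GL (Fin 2) K) 1 0 ≠ 0 := by
    obtain ⟨x₀, hx₀, hx0⟩ : ∃ x ∈ translations G, x ≠ 0 := by
      by_contra! hcon
      have : Subsingleton (translations G) :=
        ⟨fun a b => Subtype.ext ((hcon _ a.2).trans (hcon _ b.2).symm)⟩
      have := Finite.card_le_one_iff_subsingleton.mpr this
      omega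
    set v := g * uni x₀ * g⁻¹ with hv
    have hdv : (v : M₂).det = 1 := by
      simp only [hv, Units.val_mul, Matrix.det_mul]
      rw [mul_right_comm, ← Matrix.det_mul, Units.mul_inv, Matrix.det_one, one_mul]
      simp
    refine ⟨⟨ι v, v, ⟨hdv, Or.inl (G.mul_mem (G.mul_mem hg hx₀) (G.inv_mem hg))⟩, rfl⟩, ?_⟩
    rw [hιapp]
    intro h
    have h10 := (map_eq_zero (algebraMap k K)).mp h
    have e : v * g = g * uni x₀ := by simp [hv]
    have e10 := congrArg (fun M : GL₂ => M 1 0) e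
    have e11 := congrArg (fun M : GL₂ => M 1 1) e
    simp [Matrix.mul_apply, Fin.sum_univ_two, h10] at e10 e11
    have hv11 : v 1 1 = 1 := (mul_eq_right₀ hg10).mp e10
    rw [hv11, one_mul] at e11
    exact mul_ne_zero hg10 hx0 (by linear_combination -e11)
  have hle := Engine.TW.PointCount.sub_one_le_two_mul_torus hp2 hΓdet hneg P rfl hirr'
    (by rw [show Nat.card (Engine.TW.PointCount.unip ΓK) = Nat.card U from rfl, hcard]; exact h5)
  rw [show Nat.card (Engine.TW.PointCount.unip ΓK) = Nat.card U from rfl, hcard] at hle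
  refine hle.trans (Nat.add_le_add_right (Nat.mul_le_mul_left 2 ?_) 1)
  refine le_trans (Set.ncard_le_ncard (t := algebraMap k K '' torusSq G) ?_
    (Set.toFinite _)) (Set.ncard_image_le (Set.toFinite _))
  rintro _ ⟨_, ⟨g, ⟨hd, hg | hg⟩, rfl⟩, h10, rfl⟩
  · exact ⟨g 0 0 ^ 2, ⟨g, hg, hd, (algebraMap k K).injective (h10.trans (map_zero _).symm), rfl⟩, by rw [map_pow]; rfl⟩
  · exact ⟨g 0 0 ^ 2, ⟨-g, hg, by simp [Matrix.det_neg, hd],
      by simpa [hιapp] using h10, by simp⟩, by rw [map_pow]; rfl⟩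

end Fermat.Agent.RowS56
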