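import Fermat.Agent.RowS56.Vanishing.Borel

/-!
# A cocycle with values in `ad⁰ ⊗ det` is a coboundary on the Sylow subgroup
-/

noncomputable section

namespace Fermat.Agent.RowS56

open Matrix

variable {k : Type} [Field k] {p : ℕ} [Fact p.Prime] [CharP k p]

local notation "GL₂" => GL (Fin 2) k
local notation "M₂" => Matrix (Fin 2) (Fin 2) k

/-- The determinant takes a non-square value of the prime field. -/
def HasNonsquareDet (p : ℕ) [Fact p.Prime] [CharP k p] (G : Subgroup (GL (Fin 2) k)) : Prop :=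
  ∃ g ∈ G, ∃ a : ZMod p, ¬ IsSquare a ∧ (g : M₂).det = ZMod.castHom dvd_rfl k a

variable {G : Subgroup (GL (Fin 2) k)} {φ : GL (Fin 2) k → Matrix (Fin 2) (Fin 2) k}

omit [Fact p.Prime] in
/-- The components on the unipotent radical. -/
lemma uni_cocycle (hφ : IsDetCocycle G φ) {x y : k} (hx : x ∈ translations G)
    (hy : y ∈ translations G) :
    φ (uni (x + y)) 1 0 = φ (uni x) 1 0 + φ (uni y) 1 0 ∧
    φ (uni (x + y)) 0 0 = φ (uni x) 0 0 + φ (uni y) 0 0 + x * φ (uni y) 1 0 ∧
    φ (uni (x + y)) 0 1 = φ (uni x) 0 1 + φ (uni y) 0 1 - 2 * x * φ (uni y) 0 0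
      - x ^ 2 * φ (uni y) 1 0 := by
  have h := hφ.2 _ (mem_translations.mp hx) _ (mem_translations.mp hy)
  rw [← uni_add, detAd_apply] at h
  have ht := tr_fin_two (hφ.1 _ (mem_translations.mp hy))
  have e := fun i j => congrArg (fun M : M₂ => M i j) h
  have e10 := e 1 0
  have e00 := e 0 0
  have e01 := e 0 1
  simp only [Matrix.add_apply, Matrix.mul_apply, Fin.sum_univ_two] at e10 e00 e01
  simp at e10 e00 e01
  refine ⟨e10, ?_, ?_⟩
  · linear_combination e00
  · linear_combination e01 + x * ht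

omit [Fact p.Prime] in
/-- Conjugation by the Borel subgroup. -/
lemma borel_cocycle (hφ : IsDetCocycle G φ) {b : GL₂} (hb : b ∈ G) (hb10 : b 1 0 = 0) {x : k}
    (hx : x ∈ translations G) :
    b 0 0 * x / b 1 1 ∈ translations G ∧
    φ b 1 0 + b 1 1 ^ 2 * φ (uni x) 1 0 = φ (uni (b 0 0 * x / b 1 1)) 1 0 + φ b 1 0 ∧
    φ b 0 0 + (b 0 0 * b 1 1 * φ (uni x) 0 0 + b 0 1 * b 1 1 * φ (uni x) 1 0) =
      φ (uni (b 0 0 * x / b 1 1)) 0 0 + (φ b 0 0 + b 0 0 * x / b 1 1 * φ b 1 0) ∧
    φ b 0 1 + (b 0 0 ^ 2 * φ (uni x) 0 1 - 2 * b 0 0 * b 0 1 * φ (uni x) 0 0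
      - b 0 1 ^ 2 * φ (uni x) 1 0) =
      φ (uni (b 0 0 * x / b 1 1)) 0 1 + (φ b 0 1 - 2 * (b 0 0 * x / b 1 1) * φ b 0 0
        - (b 0 0 * x / b 1 1) ^ 2 * φ b 1 0) := by
  set y := b 0 0 * x / b 1 1 with hy
  have hby := mul_uni_of_upper hb10 x
  rw [← hy] at hby
  have hymem : y ∈ translations G := by
    rw [mem_translations, show uni y = b * uni x * b⁻¹ by rw [hby, mul_inv_cancel_right]]
    exact G.mul_mem (G.mul_mem hb hx) (G.inv_mem hb)
  refine ⟨hymem, ?_⟩
  have h := hφ.2 _ hb _ (mem_translations.mp hx)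
  rw [hby, hφ.2 _ (mem_translations.mp hymem) _ hb, detAd_apply, detAd_apply] at h
  have ht := tr_fin_two (hφ.1 _ (mem_translations.mp hx))
  have htb := tr_fin_two (hφ.1 _ hb)
  have e := fun i j => congrArg (fun M : M₂ => M i j) h
  have e10 := e 1 0
  have e00 := e 0 0
  have e01 := e 0 1
  simp only [Matrix.add_apply, Matrix.mul_apply, Fin.sum_univ_two] at e10 e00 e01
  simp [hb10] at e10 e00 e01
  refine ⟨?_, ?_, ?_⟩
  · linear_combination -e10
  · linear_combination -e00
  · linear_combination -e01 + y * htb - b 0 1 * b 0 0 * ht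

variable (hp2 : p ≠ 2) (hmax : IsUniSylow p G) {x₀ : k} (hx₀ : x₀ ∈ translations G) (hx0 : x₀ ≠ 0)
  (hirr : ∃ g ∈ G, g 1 0 ≠ 0) (hns : HasNonsquareDet p G) (hφ : IsDetCocycle G φ) [Finite k]

include hx₀ hx0 in
omit hmax in
lemma card_translations_pow : ∃ m, 1 ≤ m ∧ Nat.card (translations G) = p ^ m := by
  obtain ⟨m, hm⟩ := (isPGroup_inf_upperUni (p := p) G).exists_card_eq
  rw [← card_translations] at hm
  refine ⟨m, ?_, hm⟩
  by_contra h
  obtain rfl : m = 0 := by omega
  rw [pow_zero] at hm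
  have := (Nat.card_eq_one_iff_unique.mp hm).1
  exact hx0 (congrArg Subtype.val (Subsingleton.elim (⟨x₀, hx₀⟩ : translations G) 0))

include hp2 hmax hx₀ hx0 hirr hns hφ in
/-- The lower component vanishes on the unipotent radical. -/
lemma lower_eq_zero {x : k} (hx : x ∈ translations G) : φ (uni x) 1 0 = 0 := by
  have hlin : ∀ z ∈ translations G, φ (uni z) 1 0 = φ (uni x₀) 1 0 / x₀ * z := fun z hz => by
    have h1 := (uni_cocycle hφ hx₀ hz).2.1
    have h2 := (uni_cocycle hφ hz hx₀).2.1
    rw [add_comm z x₀] at h2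
    field_simp
    linear_combination h2 - h1
  set c := φ (uni x₀) 1 0 / x₀ with hc
  rw [hlin x hx]
  suffices h0 : c = 0 by rw [h0, zero_mul]
  by_contra hcne
  have hrel : ∀ b ∈ G, b 1 0 = 0 → b 0 0 = b 1 1 ^ 3 := fun b hb hb10 => by
    obtain ⟨hm, e, -⟩ := borel_cocycle hφ hb hb10 hx₀
    have hb11 : b 1 1 ≠ 0 := fun h => b.det_ne_zero (by rw [Matrix.det_fin_two, hb10, h]; ring)
    rw [hlin _ hx₀, hlin _ hm] at e
    field_simp at e
    have h3 : c * x₀ * (b 1 1 ^ 3 - b 0 0) = 0 := by linear_combination e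
    exact (sub_eq_zero.mp ((mul_eq_zero.mp h3).resolve_left (mul_ne_zero hcne hx0))).symm
  have htorus : torusSq G ⊆ {1, -1} := by
    rintro _ ⟨g, hg, hd, h10, rfl⟩
    have h3 := hrel g hg h10
    rw [Matrix.det_fin_two, h10, mul_zero, sub_zero, h3] at hd
    rw [h3, Set.mem_insert_iff, Set.mem_singleton_iff]
    have h4 : (g 1 1 ^ 2 - 1) * (g 1 1 ^ 2 + 1) = 0 := by linear_combination hd
    rcases mul_eq_zero.mp h4 with h | h
    · left; linear_combination (g 1 1 ^ 4 + g 1 1 ^ 2 + 1) * h
    · right; linear_combination (g 1 1 ^ 4 - g 1 1 ^ 2 + 1) * h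
  obtain ⟨m, hm1, hm⟩ := card_translations_pow (p := p) hx₀ hx0
  have hp3 : 3 ≤ p := by have := (Fact.out : p.Prime).two_le; omega
  have hq : Nat.card (translations G) = p := by
    rcases Nat.lt_or_ge m 2 with h | h
    · rw [hm, show m = 1 by omega, pow_one]
    · exfalso
      have h9 : 9 ≤ Nat.card (translations G) := by
        rw [hm]
        calc 9 = 3 ^ 2 := by norm_num
          _ ≤ p ^ 2 := Nat.pow_le_pow_left hp3 2
          _ ≤ p ^ m := Nat.pow_le_pow_right (by omega) h
      have hle := card_le_two_mul_torusSq hp2 hmax hirr (by omega)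
      have := (Set.ncard_le_ncard htorus (Set.toFinite _)).trans
        ((Set.ncard_insert_le _ _).trans (by rw [Set.ncard_singleton]))
      omega
  obtain ⟨g, hg, a, ha, hga⟩ := hns
  obtain ⟨b, hb, hb10, hbdet⟩ := exists_borel_det hmax hx₀ hx0 hg
  have hr := (borel_cocycle hφ hb hb10 hx₀).1
  have hb11 : b 1 1 ≠ 0 := fun h => b.det_ne_zero (by rw [Matrix.det_fin_two, hb10, h]; ring)
  rw [hrel b hb hb10, show b 1 1 ^ 3 * x₀ / b 1 1 = b 1 1 ^ 2 * x₀ by field_simp] at hr
  -- the translations are the prime field multiples of `x₀`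
  let mulx : ZMod p →+ translations G :=
    ZMod.lift p ⟨zmultiplesHom _ (⟨x₀, hx₀⟩ : translations G), by
      refine Subtype.ext ?_
      simp⟩
  have hmulx : ∀ t : ZMod p, (mulx t : k) = ZMod.castHom dvd_rfl k t * x₀ := fun t => by
    obtain ⟨i, rfl⟩ := ZMod.intCast_surjective t
    simp [mulx]
  let := Fintype.ofFinite (translations G)
  have hsurj : Function.Surjective mulx :=
    ((Fintype.bijective_iff_injective_and_card _).mpr ⟨fun s t h => (ZMod.castHom dvd_rfl k).injective
      (mul_right_cancel₀ hx0 (by rw [← hmulx, ← hmulx, h])), by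
        rw [ZMod.card, ← hq, Nat.card_eq_fintype_card]⟩).2
  obtain ⟨t, ht⟩ := hsurj ⟨_, hr⟩
  have ht' : ZMod.castHom dvd_rfl k t = b 1 1 ^ 2 := by
    have := congrArg Subtype.val ht
    rw [hmulx] at this
    exact mul_right_cancel₀ hx0 this
  refine ha ⟨t, (ZMod.castHom dvd_rfl k).injective ?_⟩
  rw [map_mul, ht', ← hga, ← hbdet, Matrix.det_fin_two, hb10, mul_zero, sub_zero, hrel b hb hb10]
  ring

include hp2 hmax hx₀ hx0 hirr hns hφ in
/-- **On the Sylow subgroup the cocycle is a coboundary.** -/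
theorem exists_coboundary_on_uni : ∃ X : M₂, X.trace = 0 ∧
    ∀ g ∈ G ⊓ upperUni, φ g = detAd g X - X := by
  have h2 : (2 : k) ≠ 0 := two_ne_zero_of_charP hp2
  have hF : ∀ x ∈ translations G, φ (uni x) 1 0 = 0 := fun x hx =>
    lower_eq_zero hp2 hmax hx₀ hx0 hirr hns hφ hx
  obtain ⟨γ, hγ⟩ : ∃ γ, γ = φ (uni x₀) 0 0 / x₀ := ⟨_, rfl⟩
  have hH : ∀ x ∈ translations G, φ (uni x) 0 0 = γ * x := fun x hx => by
    have h1 := (uni_cocycle hφ hx₀ hx).2.2
    have h2' := (uni_cocycle hφ hx hx₀).2.2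
    rw [add_comm x x₀] at h2'
    rw [hF x hx] at h1
    rw [hF x₀ hx₀] at h2'
    rw [hγ]
    field_simp
    exact mul_left_cancel₀ h2 (by linear_combination h1 - h2')
  let E : k → k := fun x => φ (uni x) 0 1 + γ * x ^ 2
  have hEadd : ∀ x ∈ translations G, ∀ y ∈ translations G, E (x + y) = E x + E y :=
    fun x hx y hy => by
      have h := (uni_cocycle hφ hx hy).2.2
      rw [hH _ hy, hF _ hy] at h
      simp only [E]
      linear_combination h
  have hEneg : ∀ x ∈ translations G, E (-x) = -E x := fun x hx => by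
    have h0 := hEadd 0 (translations G).zero_mem 0 (translations G).zero_mem
    have h := hEadd x hx (-x) ((translations G).neg_mem hx)
    rw [add_zero] at h0
    rw [add_neg_cancel] at h
    linear_combination -h - h0
  -- the scalars commuting with `E`
  let L : AddSubgroup k :=
    { carrier := {l | ∀ x ∈ translations G, l * x ∈ translations G ∧ E (l * x) = l * E x}
      zero_mem' := fun x _ => by
        have h0 := hEadd 0 (translations G).zero_mem 0 (translations G).zero_mem
        rw [add_zero] at h0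
        refine ⟨by rw [zero_mul]; exact (translations G).zero_mem, ?_⟩
        rw [zero_mul, zero_mul]
        linear_combination -h0
      add_mem' := fun {a b} ha hb x hx => by
        refine ⟨by rw [add_mul]; exact (translations G).add_mem (ha x hx).1 (hb x hx).1, ?_⟩
        rw [add_mul, hEadd _ (ha x hx).1 _ (hb x hx).1, (ha x hx).2, (hb x hx).2, add_mul]
      neg_mem' := fun {a} ha x hx => by
        refine ⟨by rw [neg_mul]; exact (translations G).neg_mem (ha x hx).1, ?_⟩
        rw [neg_mul, hEneg _ (ha x hx).1, (ha x hx).2, neg_mul] }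
  have h1L : (1 : k) ∈ L := fun x hx => by simp [hx]
  have hTL : torusSq G ⊆ L := by
    rintro _ ⟨g, hg, hdet, h10, rfl⟩
    rw [Matrix.det_fin_two, h10, mul_zero, sub_zero] at hdet
    have hg00 : g 0 0 ≠ 0 := fun h => zero_ne_one (by rw [← hdet, h, zero_mul])
    have hg11 : g 1 1 = (g 0 0)⁻¹ := eq_inv_of_mul_eq_one_right hdet
    set r := g 0 0 ^ 2 with hr
    set δ := 2 * r * φ g 0 0 - 2 * g 0 0 * g 0 1 * γ with hδ
    have hfb : φ g 1 0 = γ * (g 1 1 ^ 2 - 1) := by
      obtain ⟨hm, -, e, -⟩ := borel_cocycle hφ hg h10 hx₀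
      rw [hH _ hx₀, hH _ hm, hF _ hx₀, hg11] at e
      rw [hg11]
      field_simp at e ⊢
      refine mul_left_cancel₀ (mul_ne_zero hg00 hx0) ?_
      linear_combination -e
    have hstep : ∀ x ∈ translations G, r * x ∈ translations G ∧
        E (r * x) = r * E x + δ * x := fun x hx => by
      obtain ⟨hm, -, -, e⟩ := borel_cocycle hφ hg h10 hx
      have hrx : g 0 0 * x / g 1 1 = r * x := by rw [hg11, hr]; field_simp
      rw [hrx] at hm e
      refine ⟨hm, ?_⟩
      rw [hH _ hx, hF _ hx, hfb, hg11] at e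
      simp only [E, hδ, hr] at e ⊢
      field_simp at e ⊢
      linear_combination -e
    have hiter : ∀ x ∈ translations G, ∀ j : ℕ, r ^ j * x ∈ translations G ∧
        r * E (r ^ j * x) = r * (r ^ j * E x) + (j : k) * r ^ j * δ * x := fun x hx j => by
      induction j with
      | zero => simpa using hx
      | succ j ih =>
        obtain ⟨hm, he⟩ := hstep _ ih.1
        rw [show r ^ (j + 1) * x = r * (r ^ j * x) by ring]
        refine ⟨hm, ?_⟩
        rw [he]
        push_cast
        linear_combination r * ih.2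
    have hδ0 : δ = 0 := by
      let := Fintype.ofFinite k
      have h := (hiter x₀ hx₀ (Fintype.card k - 1)).2
      rw [FiniteField.pow_card_sub_one_eq_one r (pow_ne_zero _ hg00), one_mul, one_mul,
        Nat.cast_sub Fintype.card_pos, FiniteField.cast_card_eq_zero] at h
      push_cast at h
      exact (mul_eq_zero.mp (show δ * x₀ = 0 by linear_combination h)).resolve_right hx0
    intro x hx
    obtain ⟨hm, he⟩ := hstep x hx
    exact ⟨hm, by rw [he, hδ0, zero_mul, add_zero]⟩
  let ev : L →+ translations G :=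
    { toFun := fun l => ⟨(l : k) * x₀, (l.2 x₀ hx₀).1⟩
      map_zero' := Subtype.ext (zero_mul _)
      map_add' := fun a b => Subtype.ext (add_mul _ _ _) }
  have hev : Function.Injective ev := fun a b h =>
    Subtype.ext (mul_right_cancel₀ hx0 (congrArg Subtype.val h))
  have hdvd : Nat.card L ∣ Nat.card (translations G) := by
    rw [Nat.card_congr (AddMonoidHom.ofInjective hev).toEquiv]
    exact AddSubgroup.card_addSubgroup_dvd_card _
  have hL2 : 2 ≤ Nat.card L := by
    have : Nontrivial L := ⟨⟨1, h1L⟩, 0, fun h => one_ne_zero (congrArg Subtype.val h)⟩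
    exact Finite.one_lt_card
  have hLq : Nat.card L = Nat.card (translations G) := by
    obtain ⟨m, hm1, hm⟩ := card_translations_pow (p := p) hx₀ hx0
    rcases Nat.lt_or_ge (Nat.card (translations G)) 5 with h5 | h5
    · have hp3 : 3 ≤ p := by have := (Fact.out : p.Prime).two_le; omega
      have hm' : m = 1 := by
        by_contra hne
        have : 9 ≤ p ^ m := calc 9 = 3 ^ 2 := by norm_num
          _ ≤ p ^ 2 := Nat.pow_le_pow_left hp3 2
          _ ≤ p ^ m := Nat.pow_le_pow_right (by omega) (by omega)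
        omega
      rw [hm', pow_one] at hm
      rw [hm] at hdvd ⊢
      exact ((Nat.dvd_prime Fact.out).mp hdvd).resolve_left (by omega)
    · have hle := card_le_two_mul_torusSq hp2 hmax hirr h5
      have ht : (torusSq G).ncard + 1 ≤ Nat.card L := by
        have h0 : (0 : k) ∉ torusSq G := by
          rintro ⟨g, -, hd, h10, h⟩
          rw [Matrix.det_fin_two, h10, mul_zero, sub_zero,
            pow_eq_zero_iff (n := 2) (by norm_num) |>.mp h.symm, zero_mul] at hd
          exact zero_ne_one hd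
        calc (torusSq G).ncard + 1 = (insert (0 : k) (torusSq G)).ncard :=
              (Set.ncard_insert_of_notMem h0 (Set.toFinite _)).symm
          _ ≤ (L : Set k).ncard :=
              Set.ncard_le_ncard (Set.insert_subset L.zero_mem hTL) (Set.toFinite _)
          _ = Nat.card L := (Nat.card_coe_set_eq _).symm
      obtain ⟨j, hj⟩ := hdvd
      rcases Nat.lt_or_ge j 2 with hj2 | hj2
      · interval_cases j <;> omega
      · have := Nat.mul_le_mul_left (Nat.card L) hj2
        omega
  have hbij := (Nat.bijective_iff_injective_and_card ev).mpr ⟨hev, hLq⟩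
  set ε := E x₀ / x₀ with hε
  have hE : ∀ x ∈ translations G, E x = ε * x := fun x hx => by
    obtain ⟨l, hl⟩ := hbij.2 ⟨x, hx⟩
    have hl' : (l : k) * x₀ = x := congrArg Subtype.val hl
    rw [← hl', (l.2 x₀ hx₀).2, hε]
    field_simp
  refine ⟨!![-ε / 2, 0; γ, ε / 2], by simp [Matrix.trace_fin_two, neg_div], fun g hg => ?_⟩
  rw [eq_uni_of_mem hg.2]
  set x := g 0 1
  have hx : x ∈ translations G := by
    rw [mem_translations, ← eq_uni_of_mem hg.2]
    exact hg.1
  have hEx : φ (uni x) 0 1 + γ * x ^ 2 = ε * x := hE x hx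
  have ht := tr_fin_two (hφ.1 _ (mem_translations.mp hx))
  rw [detAd_apply]
  ext i j
  simp only [Matrix.sub_apply, Matrix.mul_apply, Fin.sum_univ_two]
  fin_cases i <;> fin_cases j <;> simp
  · linear_combination hH x hx
  · field_simp
    linear_combination 2 * hEx
  · exact hF x hx
  · linear_combination ht - hH x hx

end Fermat.Agent.RowS56
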