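import Fermat.Agent.RowS56.Vanishing.Core
import Mathlib.GroupTheory.Sylow

/-!
# A cocycle with values in `ad⁰ ⊗ det` is a coboundary on a Sylow subgroup
-/

noncomputable section

namespace Fermat.Agent.RowS56

open Matrix

variable {k : Type} [Field k] {p : ℕ} [Fact p.Prime] [CharP k p] [Finite k]

local notation "GL₂" => GL (Fin 2) k
local notation "M₂" => Matrix (Fin 2) (Fin 2) k

omit [Finite k] in
lemma detAd_eq (g : GL (Fin 2) k) (X : Matrix (Fin 2) (Fin 2) k) :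
    detAd g X = (g : M₂).det • ((g : M₂) * X * ((g⁻¹ : GL₂) : M₂)) := by
  have h : Matrix.adjugate (g : M₂) = (g : M₂).det • ((g⁻¹ : GL₂) : M₂) := by
    calc Matrix.adjugate (g : M₂)
        = Matrix.adjugate (g : M₂) * ((g : M₂) * ((g⁻¹ : GL₂) : M₂)) := by
          rw [Units.mul_inv, mul_one]
      _ = (g : M₂).det • ((g⁻¹ : GL₂) : M₂) := by
          rw [← mul_assoc, Matrix.adjugate_mul, Matrix.smul_mul, one_mul]
  rw [detAd, h, Matrix.mul_smul]

omit [Finite k] in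
lemma detAd_conj (C g : GL (Fin 2) k) (X : Matrix (Fin 2) (Fin 2) k) :
    detAd (C * g * C⁻¹) ((C : M₂) * X * ((C⁻¹ : GL₂) : M₂)) =
      (C : M₂) * detAd g X * ((C⁻¹ : GL₂) : M₂) := by
  rw [detAd_eq, detAd_eq, Matrix.mul_smul, Matrix.smul_mul]
  congr 1
  · simp only [Units.val_mul, Matrix.det_mul]
    rw [mul_right_comm, ← Matrix.det_mul, Units.mul_inv, Matrix.det_one, one_mul]
  · simp only [Units.val_mul, _root_.mul_inv_rev, inv_inv]
    simp [mul_assoc]

omit [Finite k] in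
/-- An element of `p`-power order in a field of characteristic `p`. -/
lemma eq_one_of_pow_prime_pow {x : k} {j : ℕ} (h : x ^ p ^ j = 1) : x = 1 :=
  sub_eq_zero.mp (pow_eq_zero_iff (pow_ne_zero j (Fact.out : p.Prime).ne_zero) |>.mp
    (by rw [sub_pow_char_pow, h, one_pow, sub_self]))

/-- A `p`-group fixes a non-zero vector. -/
lemma exists_fixed_vector {P : Subgroup (GL (Fin 2) k)} (hP : IsPGroup p P) :
    ∃ v : Fin 2 → k, v ≠ 0 ∧ ∀ g ∈ P, (g : M₂).mulVec v = v := by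
  let : MulAction P (Fin 2 → k) :=
    { smul := fun g v => ((g : GL₂) : M₂).mulVec v
      one_smul := fun v => Matrix.one_mulVec v
      mul_smul := fun g h v => (Matrix.mulVec_mulVec v ((g : GL₂) : M₂) ((h : GL₂) : M₂)).symm }
  have hdvd : p ∣ Nat.card (Fin 2 → k) := by
    rw [Nat.card_fun, Nat.card_fin]
    let := Fintype.ofFinite k
    obtain ⟨n, -, hn⟩ := FiniteField.card k p
    rw [Nat.card_eq_fintype_card, hn]
    exact dvd_pow (dvd_pow_self p n.ne_zero) two_ne_zero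
  obtain ⟨v, hv, hne⟩ := hP.exists_fixed_point_of_prime_dvd_card_of_fixed_point _ hdvd
    (a := 0) (fun g => Matrix.mulVec_zero _)
  exact ⟨v, Ne.symm hne, fun g hg => hv ⟨g, hg⟩⟩

omit [Finite k] in
/-- A matrix with given first column. -/
lemma exists_first_column {v : Fin 2 → k} (hv : v ≠ 0) :
    ∃ C : GL (Fin 2) k, ∀ i, C i 0 = v i := by
  by_cases h0 : v 0 = 0
  · have h1 : v 1 ≠ 0 := fun h1 => hv (funext fun i => by fin_cases i <;> assumption)
    refine ⟨Matrix.GeneralLinearGroup.mkOfDetNeZero !![v 0, 1; v 1, 0] ?_, fun i => ?_⟩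
    · simpa [Matrix.det_fin_two_of] using h1
    · fin_cases i <;> rfl
  · refine ⟨Matrix.GeneralLinearGroup.mkOfDetNeZero !![v 0, 0; v 1, 1] ?_, fun i => ?_⟩
    · simpa [Matrix.det_fin_two_of] using h0
    · fin_cases i <;> rfl

/-- **A cocycle is a coboundary on a Sylow subgroup.** -/
theorem exists_coboundary_sylow (hp2 : p ≠ 2) (G : Subgroup (GL (Fin 2) k))
    (hns : HasNonsquareDet p G)
    (hirr : ∀ v : Fin 2 → k, v ≠ 0 → ∃ g ∈ G, ∀ c : k, (g : M₂).mulVec v ≠ c • v)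
    {φ : GL (Fin 2) k → Matrix (Fin 2) (Fin 2) k} (hφ : IsDetCocycle G φ) :
    ∃ (P : Subgroup (GL (Fin 2) k)) (X : Matrix (Fin 2) (Fin 2) k), P ≤ G ∧ ¬ p ∣ P.relIndex G ∧
      X.trace = 0 ∧ ∀ g ∈ P, φ g = detAd g X - X := by
  classical
  obtain ⟨S⟩ : Nonempty (Sylow p G) := inferInstance
  let P : Subgroup GL₂ := (S : Subgroup G).map G.subtype
  have hPG : P ≤ G := Subgroup.map_subtype_le _
  have hidx : ¬ p ∣ P.relIndex G := by
    rw [Subgroup.relIndex, show P.subgroupOf G = (S : Subgroup G) from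
      Subgroup.comap_map_eq_self_of_injective G.subtype_injective _]
    exact S.not_dvd_index
  have hPp : IsPGroup p P := S.isPGroup'.map _
  have hPmax : ∀ Q : Subgroup GL₂, Q ≤ G → IsPGroup p Q → P ≤ Q → Q = P := fun Q hQG hQ hle => by
    have hQ' : IsPGroup p (Q.subgroupOf G) :=
      hQ.of_equiv (Subgroup.subgroupOfEquivOfLe hQG).symm
    have h1 := S.is_maximal' hQ' fun x hx => hle ⟨x, hx, rfl⟩
    refine le_antisymm (fun x hx => ?_) hle
    exact ⟨⟨x, hQG hx⟩, h1 ▸ hx, rfl⟩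
  rcases eq_or_ne P ⊥ with hbot | hne
  · refine ⟨P, 0, hPG, hidx, Matrix.trace_zero _ _, fun g hg => ?_⟩
    rw [hbot, Subgroup.mem_bot] at hg
    subst hg
    have h := hφ.2 1 G.one_mem 1 G.one_mem
    rw [one_mul, detAd_one] at h
    rw [detAd_one, sub_zero]
    exact left_eq_add.mp h
  obtain ⟨v, hv0, hv⟩ := exists_fixed_vector hPp
  obtain ⟨C, hC⟩ := exists_first_column hv0
  -- conjugate to the unitriangular group
  let G' : Subgroup GL₂ := G.map (MulAut.conj C⁻¹).toMonoidHom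
  let φ' : GL₂ → M₂ := fun h => ((C⁻¹ : GL₂) : M₂) * φ (C * h * C⁻¹) * (C : M₂)
  have hmemG' : ∀ h : GL₂, h ∈ G' ↔ C * h * C⁻¹ ∈ G := fun h => by
    constructor
    · rintro ⟨g, hg, rfl⟩
      simpa [mul_assoc] using hg
    · intro hh
      exact ⟨_, hh, by simp [mul_assoc]⟩
  have hcol : ∀ h : GL₂, (C * h * C⁻¹ : GL₂).1.mulVec v = v →
      h 0 0 = 1 ∧ h 1 0 = 0 := fun h hh => by
    have e : ((C * h : GL₂) : M₂) = ((C * h * C⁻¹ : GL₂) : M₂) * (C : M₂) := by
      rw [← Units.val_mul, inv_mul_cancel_right]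
    have h1 : ∀ i, ((C * h : GL₂) : M₂) i 0 = v i := fun i => by
      rw [e]
      have := congrFun hh i
      simp only [Matrix.mulVec, dotProduct, Matrix.mul_apply, hC] at this ⊢
      exact this
    have h2 : h = C⁻¹ * (C * h) := by rw [inv_mul_cancel_left]
    have h3 : ∀ i, (h : M₂) i 0 = (1 : M₂) i 0 := fun i => by
      conv_lhs => rw [h2]
      rw [← Units.inv_mul C]
      simp only [Units.val_mul, Matrix.mul_apply]
      refine Finset.sum_congr rfl fun j _ => ?_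
      have h1' := h1 j
      simp only [Units.val_mul, Matrix.mul_apply] at h1'
      rw [h1', hC]
    exact ⟨h3 0, h3 1⟩
  have hP' : ∀ g ∈ P, C⁻¹ * g * C ∈ G' ⊓ upperUni := fun g hg => by
    have hconj : C * (C⁻¹ * g * C) * C⁻¹ = g := by group
    refine ⟨(hmemG' _).mpr (by rw [hconj]; exact hPG hg), ?_⟩
    obtain ⟨h00, h10⟩ := hcol _ (by rw [hconj]; exact hv g hg)
    refine ⟨h00, h10, ?_⟩
    obtain ⟨j, hj⟩ := hPp ⟨g, hg⟩
    have hd : ((C⁻¹ * g * C : GL₂) : M₂).det = 1 := by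
      refine eq_one_of_pow_prime_pow (p := p) (j := j) ?_
      simp only [Units.val_mul, Matrix.det_mul]
      rw [mul_right_comm, ← Matrix.det_mul, Units.inv_mul, Matrix.det_one, one_mul, ← Matrix.det_pow,
        ← Units.val_pow_eq_pow_val, show g ^ p ^ j = 1 from by
          simpa using congrArg Subtype.val hj, Units.val_one, Matrix.det_one]
    rw [Matrix.det_fin_two, h00, h10, one_mul, mul_zero, sub_zero] at hd
    exact hd
  have hmax : IsUniSylow p G' := fun Q hQG hQ hle => by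
    refine le_antisymm (fun h hh => ?_) hle
    let Q' : Subgroup GL₂ := Q.map (MulAut.conj C).toMonoidHom
    have hQ' : Q' = P := by
      refine hPmax Q' ?_ (hQ.map _) fun g hg => ⟨C⁻¹ * g * C, hle (hP' g hg), by simp [mul_assoc]⟩
      rintro _ ⟨h, hh, rfl⟩
      exact (hmemG' h).mp (hQG hh)
    have hmem : C * h * C⁻¹ ∈ P := hQ' ▸ ⟨h, hh, rfl⟩
    simpa [mul_assoc] using hP' _ hmem
  obtain ⟨x₀, hx₀, hx0⟩ : ∃ x ∈ translations G', x ≠ 0 := by
    obtain ⟨g, hg, hg1⟩ := (Subgroup.bot_or_exists_ne_one P).resolve_left hne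
    obtain ⟨hG', hU⟩ := hP' g hg
    refine ⟨(C⁻¹ * g * C : GL₂) 0 1, ?_, fun h0 => hg1 ?_⟩
    · show uni ((C⁻¹ * g * C : GL₂) 0 1) ∈ G'
      rw [← eq_uni_of_mem hU]
      exact hG'
    · have : C⁻¹ * g * C = 1 := by rw [eq_uni_of_mem hU, h0, uni_zero]
      simpa [mul_assoc] using congrArg (fun u => C * u * C⁻¹) this
  have hirr' : ∃ h ∈ G', h 1 0 ≠ 0 := by
    obtain ⟨g, hg, hgv⟩ := hirr v hv0
    refine ⟨C⁻¹ * g * C, (hmemG' _).mpr (by simpa [mul_assoc] using hg), fun h10 => ?_⟩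
    set h := C⁻¹ * g * C with hh
    refine hgv (h 0 0) (funext fun i => ?_)
    have e := congrArg (fun M : GL₂ => M i 0) (show g * C = C * h by rw [hh]; group)
    simp only [Units.val_mul, Matrix.mul_apply, Fin.sum_univ_two, hC, h10, mul_zero, add_zero] at e
    simp only [Matrix.mulVec, dotProduct, Fin.sum_univ_two, Pi.smul_apply, smul_eq_mul, e]
    ring
  have hns' : HasNonsquareDet p G' := by
    obtain ⟨g, hg, a, ha, hga⟩ := hns
    refine ⟨C⁻¹ * g * C, (hmemG' _).mpr (by simpa [mul_assoc] using hg), a, ha, ?_⟩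
    rw [← hga]
    simp only [Units.val_mul, Matrix.det_mul]
    rw [mul_right_comm, ← Matrix.det_mul, Units.inv_mul, Matrix.det_one, one_mul]
  have hφ' : IsDetCocycle G' φ' := by
    refine ⟨fun h hh => ?_, fun a ha b hb => ?_⟩
    · simp only [φ']
      rw [Matrix.trace_mul_cycle, Units.mul_inv, one_mul]
      exact hφ.1 _ ((hmemG' h).mp hh)
    · simp only [φ']
      rw [show C * (a * b) * C⁻¹ = C * a * C⁻¹ * (C * b * C⁻¹) by group,
        hφ.2 _ ((hmemG' a).mp ha) _ ((hmemG' b).mp hb), Matrix.mul_add, Matrix.add_mul]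
      congr 1
      have e := detAd_conj C⁻¹ (C * a * C⁻¹) (φ (C * b * C⁻¹))
      rw [inv_inv, show C⁻¹ * (C * a * C⁻¹) * C = a by group] at e
      exact e.symm
  obtain ⟨X, hX, hXuni⟩ := exists_coboundary_on_uni hp2 hmax hx₀ hx0 hirr' hns' hφ'
  refine ⟨P, (C : M₂) * X * ((C⁻¹ : GL₂) : M₂), hPG, hidx,
    by rw [Matrix.trace_mul_cycle, Units.inv_mul, one_mul, hX], fun g hg => ?_⟩
  have h := congrArg (fun M : M₂ => (C : M₂) * M * ((C⁻¹ : GL₂) : M₂)) (hXuni _ (hP' g hg))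
  simp only [φ', Matrix.mul_sub, Matrix.sub_mul] at h
  rw [← detAd_conj, show C * (C⁻¹ * g * C) * C⁻¹ = g by group] at h
  simpa [mul_assoc] using h

end Fermat.Agent.RowS56
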